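/-
P-MW block E, row MW-E-RATW (helper57): the elementary facts about `RatRing F₀ t` and its
filtration `ratW F₀ t`.

`theorem ratW_facts : Fermat.Agent.H23.MWE.RatWStatement`.
-/
import Fermat.Agent.H23.MWE.Interfaces
import Fermat.Agent.H58.RR.CharZero

set_option autoImplicit false
set_option linter.style.haveILetI false
set_option linter.unusedSectionVars false
set_option synthInstance.maxHeartbeats 400000

noncomputable section

open ModularCurve AlgebraicCurve IntermediateField

namespace Fermat.Agent.H57.MWE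

open Fermat.Agent.H92.MW (QQbar)
open Fermat.Agent.H23.MWE

/-! ### Laurent series -/

/-- The coefficientwise embedding preserves the order. -/
theorem order_coeffEmb_eq (L : Type) [Field L] [Algebra ℚ L] (x : LaurentSeries ℚ) :
    (coeffEmb L x).order = x.order := by
  have hinj : Function.Injective (algebraMap ℚ L) := (algebraMap ℚ L).injective
  by_cases hx : x = 0
  · rw [hx, map_zero, HahnSeries.order_zero, HahnSeries.order_zero]
  have hx' : coeffEmb L x ≠ 0 := by
    intro h
    apply hx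
    ext k
    have := congrArg (fun y : LaurentSeries L => y.coeff k) h
    simp only [coeffEmb_coeff, HahnSeries.coeff_zero] at this
    rw [HahnSeries.coeff_zero]
    exact hinj (by rw [this, map_zero])
  apply le_antisymm
  · apply HahnSeries.order_le_of_coeff_ne_zero
    rw [coeffEmb_coeff]
    intro h
    exact hx (HahnSeries.coeff_order_eq_zero.1 (hinj (by rw [h, map_zero])))
  · apply HahnSeries.order_le_of_coeff_ne_zero
    intro h
    apply hx'
    apply HahnSeries.coeff_order_eq_zero.1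
    rw [coeffEmb_coeff, h, map_zero]

/-- A Laurent series of order `≥ -(m+1)` has order `≥ -m` iff its coefficient at `-(m+1)`
vanishes. -/
theorem order_ge_iff_coeff_eq_zero {K : Type} [Field K] (x : LaurentSeries K) (m : ℕ)
    (hx : -((m + 1 : ℕ) : ℤ) ≤ x.order) :
    -(m : ℤ) ≤ x.order ↔ x.coeff (-((m + 1 : ℕ) : ℤ)) = 0 := by
  constructor
  · intro h
    apply HahnSeries.coeff_eq_zero_of_lt_order
    push_cast
    omega
  · intro h
    by_cases hx0 : x = 0
    · rw [hx0, HahnSeries.order_zero]; omega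
    have hne : x.order ≠ -((m + 1 : ℕ) : ℤ) := by
      intro heq
      apply hx0
      apply HahnSeries.coeff_order_eq_zero.1
      rw [heq]
      exact h
    push_cast at hx hne
    omega

/-! ### Linear algebra -/

/-- A rational vector space with a functional whose kernel is finite-dimensional is
finite-dimensional, of dimension at most one more. -/
theorem finite_and_finrank_le_of_ker {V : Type} [AddCommGroup V] [Module ℚ V]
    (ψ : V →ₗ[ℚ] ℚ) (hker : Module.Finite ℚ (LinearMap.ker ψ)) :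
    Module.Finite ℚ V ∧ Module.finrank ℚ V ≤ Module.finrank ℚ (LinearMap.ker ψ) + 1 := by
  haveI := hker
  haveI : Module.Finite ℚ (V ⧸ LinearMap.ker ψ) :=
    Module.Finite.equiv (ψ.quotKerEquivRange).symm
  haveI hV : Module.Finite ℚ V := Module.Finite.of_submodule_quotient (LinearMap.ker ψ)
  refine ⟨hV, ?_⟩
  have h1 := LinearMap.finrank_range_add_finrank_ker ψ
  have h2 : Module.finrank ℚ (LinearMap.range ψ) ≤ 1 := by
    have := Submodule.finrank_le (LinearMap.range ψ)
    rwa [Module.finrank_self] at this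
  omega

/-! ### The ring -/

section ring

variable (F₀ : IntermediateField ℚ (LaurentSeries ℚ)) (t : ↥F₀)

/-- `ℚ[t]` is of finite type over `ℚ`. -/
theorem finiteType_adjoin_singleton :
    Algebra.FiniteType ℚ (Algebra.adjoin ℚ ({t} : Set ↥F₀)) :=
  Algebra.FiniteType.of_surjective (Fermat.Agent.H84.polyToA (K := ℚ) t)
    (Fermat.Agent.H84.polyToA_surjective t)

/-- `RatRing F₀ t` is of finite type over `ℚ`. -/
theorem ratRing_finiteType (hfin : FiniteDimensional ℚ⟮t⟯ ↥F₀) :
    Algebra.FiniteType ℚ (RatRing F₀ t) := by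
  haveI := Fermat.Agent.H84.finite_closure (K := ℚ) t hfin
  haveI := finiteType_adjoin_singleton F₀ t
  exact Algebra.FiniteType.trans (R := ℚ) (S := Algebra.adjoin ℚ ({t} : Set ↥F₀))
    (A := RatRing F₀ t) inferInstance inferInstance

/-- `RatRing F₀ t` is not a field. -/
theorem ratRing_not_isField (ht : Transcendental ℚ t) : ¬ IsField (RatRing F₀ t) := by
  intro h
  have hinj : Function.Injective
      (algebraMap (Algebra.adjoin ℚ ({t} : Set ↥F₀)) (RatRing F₀ t)) := by
    intro a b hab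
    have := congrArg (fun z : RatRing F₀ t => (z : ↥F₀)) hab
    exact Subtype.ext this
  have h1 : IsField (Algebra.adjoin ℚ ({t} : Set ↥F₀)) :=
    isField_of_isIntegral_of_isField hinj h
  let e : Polynomial ℚ ≃+* Algebra.adjoin ℚ ({t} : Set ↥F₀) :=
    RingEquiv.ofBijective (Fermat.Agent.H84.polyToA (K := ℚ) t)
      ⟨Fermat.Agent.H84.polyToA_injective t ht, Fermat.Agent.H84.polyToA_surjective t⟩
  exact Polynomial.not_isField ℚ (MulEquiv.isField h1 e.toMulEquiv)

end ring

/-! ### The filtration -/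

section filtration

variable (F₀ : IntermediateField ℚ (LaurentSeries ℚ)) (t : ↥F₀)

/-- `toBar` of a rational constant. -/
theorem toBar_algebraMap (c : ℚ) :
    toBar F₀ (algebraMap ℚ ↥F₀ c) = algebraMap QQbar (FBar F₀) (algebraMap ℚ QQbar c) := by
  apply Subtype.ext
  show coeffEmb QQbar (HahnSeries.single (0 : ℤ) c) =
    algebraMap QQbar (LaurentSeries QQbar) (algebraMap ℚ QQbar c)
  rw [algebraMap_laurentSeries_eq_single, coeffEmb, coeffMap_single]

/-- `toBar` maps `ℚ[t]` into `ℚ̄[toBar t]`. -/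
theorem toBar_mem_adjoin {a : ↥F₀} (ha : a ∈ Algebra.adjoin ℚ ({t} : Set ↥F₀)) :
    toBar F₀ a ∈ Algebra.adjoin QQbar ({toBar F₀ t} : Set (FBar F₀)) := by
  induction ha using Algebra.adjoin_induction with
  | mem x hx =>
    rw [Set.mem_singleton_iff] at hx
    subst hx
    exact Algebra.self_mem_adjoin_singleton _ _
  | algebraMap c =>
    rw [toBar_algebraMap]
    exact Subalgebra.algebraMap_mem _ _
  | add x y _ _ hx hy =>
    rw [map_add]
    exact add_mem hx hy
  | mul x y _ _ hx hy =>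
    rw [map_mul]
    exact mul_mem hx hy

/-- Integrality over `ℚ[t]` implies integrality over `ℚ̄[toBar t]`. -/
theorem isIntegral_toBar {f : ↥F₀} (hf : IsIntegral (Algebra.adjoin ℚ ({t} : Set ↥F₀)) f) :
    IsIntegral (Algebra.adjoin QQbar ({toBar F₀ t} : Set (FBar F₀))) (toBar F₀ f) := by
  let φ : Algebra.adjoin ℚ ({t} : Set ↥F₀) →+*
      Algebra.adjoin QQbar ({toBar F₀ t} : Set (FBar F₀)) :=
    { toFun := fun a => ⟨toBar F₀ a, toBar_mem_adjoin F₀ t a.2⟩
      map_one' := Subtype.ext (map_one (toBar F₀))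
      map_mul' := fun _ _ => Subtype.ext (map_mul (toBar F₀) _ _)
      map_zero' := Subtype.ext (map_zero (toBar F₀))
      map_add' := fun _ _ => Subtype.ext (map_add (toBar F₀) _ _) }
  exact IsIntegral.map_of_comp_eq φ (toBar F₀) (by ext; rfl) hf

/-- An element of `RatRing` of nonnegative `q`-order is regular at all places. -/
theorem ord_toBar_nonneg {P : Place QQbar (FBar F₀)} (h : TData F₀ t P) (f : RatRing F₀ t)
    (hf : 0 ≤ (((f : ↥F₀) : LaurentSeries ℚ)).order) (Q : Place QQbar (FBar F₀)) :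
    0 ≤ Q.ord (toBar F₀ (f : ↥F₀)) := by
  by_cases hf0 : toBar F₀ (f : ↥F₀) = 0
  · rw [hf0, Place.ord_zero]
  by_cases hQ : Q = P
  · subst hQ
    rw [h.isInf _ hf0, coe_toBar, order_coeffEmb_eq]
    exact hf
  · have ht0 : toBar F₀ t ≠ 0 := fun h0 => h.trans_bar (h0 ▸ isAlgebraic_zero)
    have h1 : toBar F₀ t ∈ Q.toValuationSubring :=
      Fermat.Agent.H84.mem_of_ord_nonneg Q ht0 (h.reg Q hQ)
    exact Fermat.Agent.H23.ord_nonneg_of_mem Q
      (Fermat.Agent.H84.closure_le_place (toBar F₀ t) Q h1 _ (isIntegral_toBar F₀ t f.2))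

/-- An element of `RatRing` of nonnegative `q`-order is a rational constant. -/
theorem exists_const_of_order_nonneg {P : Place QQbar (FBar F₀)} (h : TData F₀ t P)
    (f : RatRing F₀ t) (hf : 0 ≤ (((f : ↥F₀) : LaurentSeries ℚ)).order) :
    ∃ c : ℚ, algebraMap ℚ (RatRing F₀ t) c = f := by
  have hR := Fermat.Agent.H58.rrHyp_charZero QQbar (FBar F₀) (toBar F₀ t) h.trans_bar h.fin_bar
  haveI := hR.principal
  have hmem : toBar F₀ (f : ↥F₀) ∈ riemannRochSpace (0 : Divisor QQbar (FBar F₀)) := by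
    rw [mem_riemannRochSpace_iff]
    intro v
    right
    have := ord_toBar_nonneg F₀ t h f hf v
    simpa using this
  obtain ⟨c, hc⟩ := (Fermat.Agent.H58.rr_mem_zero_iff hR.deg_one P).mp hmem
  have hc' : coeffEmb QQbar ((f : ↥F₀) : LaurentSeries ℚ) = HahnSeries.single 0 c := by
    have := congrArg (fun g : FBar F₀ => (g : LaurentSeries QQbar)) hc
    simp only [coe_toBar] at this
    rw [this, ← algebraMap_laurentSeries_eq_single]
    rfl
  have hinj : Function.Injective (algebraMap ℚ QQbar) := (algebraMap ℚ QQbar).injective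
  refine ⟨(((f : ↥F₀) : LaurentSeries ℚ)).coeff 0, ?_⟩
  apply Subtype.ext
  apply Subtype.ext
  show HahnSeries.single (0 : ℤ) _ = ((f : ↥F₀) : LaurentSeries ℚ)
  ext k
  have hk := congrArg (fun g : LaurentSeries QQbar => g.coeff k) hc'
  simp only [coeffEmb_coeff] at hk
  by_cases hk0 : k = 0
  · subst hk0
    rw [HahnSeries.coeff_single_same]
    exact Rat.cast_id _
  · rw [HahnSeries.coeff_single_of_ne hk0] at hk ⊢
    exact (hinj (by rw [hk, map_zero])).symm

/-- `W 0 = ℚ`. -/
theorem ratW_zero_eq {P : Place QQbar (FBar F₀)} (h : TData F₀ t P) : ratW F₀ t 0 = 1 := by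
  apply le_antisymm
  · intro f hf
    rw [mem_ratW] at hf
    obtain ⟨c, hc⟩ := exists_const_of_order_nonneg F₀ t h f (by simpa using hf)
    rw [Submodule.mem_one]
    exact ⟨c, hc⟩
  · intro f hf
    rw [Submodule.mem_one] at hf
    obtain ⟨c, rfl⟩ := hf
    rw [mem_ratW]
    show -((0 : ℕ) : ℤ) ≤ (HahnSeries.single (0 : ℤ) c : LaurentSeries ℚ).order
    by_cases hc : c = 0
    · rw [hc, HahnSeries.single_eq_zero, HahnSeries.order_zero]; simp
    · rw [HahnSeries.order_single hc]; simp

/-- The filtration is multiplicative. -/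
theorem ratW_mul_le (m m' : ℕ) : ratW F₀ t m * ratW F₀ t m' ≤ ratW F₀ t (m + m') := by
  rw [Submodule.mul_le]
  intro a ha b hb
  rw [mem_ratW] at ha hb ⊢
  show -((m + m' : ℕ) : ℤ) ≤
    ((((a : ↥F₀) : LaurentSeries ℚ)) * (((b : ↥F₀) : LaurentSeries ℚ))).order
  by_cases ha0 : ((a : ↥F₀) : LaurentSeries ℚ) = 0
  · rw [ha0, zero_mul, HahnSeries.order_zero]; omega
  by_cases hb0 : ((b : ↥F₀) : LaurentSeries ℚ) = 0
  · rw [hb0, mul_zero, HahnSeries.order_zero]; omega
  rw [HahnSeries.order_mul ha0 hb0]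
  push_cast
  omega

/-- The filtration is exhaustive. -/
theorem ratW_exhaust (f : RatRing F₀ t) : ∃ m : ℕ, f ∈ ratW F₀ t m := by
  refine ⟨(-(((f : ↥F₀) : LaurentSeries ℚ)).order).toNat, ?_⟩
  rw [mem_ratW]
  omega

/-- The coefficient functionals on `RatRing`. -/
def coeffFun (k : ℤ) : RatRing F₀ t →ₗ[ℚ] ℚ where
  toFun f := (((f : ↥F₀) : LaurentSeries ℚ)).coeff k
  map_add' _ _ := rfl
  map_smul' c a := by
    have h : (((c • a : RatRing F₀ t) : ↥F₀) : LaurentSeries ℚ)
        = c • (((a : ↥F₀) : LaurentSeries ℚ)) := by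
      rw [Algebra.smul_def, ← HahnSeries.C_mul_eq_smul]
      rfl
    show ((((c • a : RatRing F₀ t) : ↥F₀) : LaurentSeries ℚ)).coeff k = _
    rw [h]
    rfl

theorem coeffFun_apply (k : ℤ) (f : RatRing F₀ t) :
    coeffFun F₀ t k f = (((f : ↥F₀) : LaurentSeries ℚ)).coeff k := rfl

theorem ratW_mono (m : ℕ) : ratW F₀ t m ≤ ratW F₀ t (m + 1) := by
  intro f hf
  rw [mem_ratW] at hf ⊢
  push_cast
  omega

set_option maxSynthPendingDepth 3 in
/-- One step of the filtration. -/
theorem ratW_succ (m : ℕ) (hfin : Module.Finite ℚ (ratW F₀ t m)) :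
    Module.Finite ℚ (ratW F₀ t (m + 1)) ∧
      Module.finrank ℚ (ratW F₀ t (m + 1)) ≤ Module.finrank ℚ (ratW F₀ t m) + 1 := by
  obtain ⟨ψ, hψ⟩ : ∃ ψ : ↥(ratW F₀ t (m + 1)) →ₗ[ℚ] ℚ, ∀ f : ↥(ratW F₀ t (m + 1)),
      ψ f = ((((f : RatRing F₀ t) : ↥F₀) : LaurentSeries ℚ)).coeff (-((m + 1 : ℕ) : ℤ)) :=
    ⟨(coeffFun F₀ t (-((m + 1 : ℕ) : ℤ))).comp (ratW F₀ t (m + 1)).subtype, fun _ => rfl⟩
  have hker : LinearMap.ker ψ =
      Submodule.comap (ratW F₀ t (m + 1)).subtype (ratW F₀ t m) := by
    ext f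
    rw [LinearMap.mem_ker, Submodule.mem_comap, hψ]
    exact (order_ge_iff_coeff_eq_zero _ m f.2).symm
  have e := Submodule.comapSubtypeEquivOfLe (ratW_mono F₀ t m)
  haveI := hfin
  have hkfin : Module.Finite ℚ (LinearMap.ker ψ) := by
    rw [hker]
    exact Module.Finite.equiv e.symm
  obtain ⟨h1, h2⟩ :=
    finite_and_finrank_le_of_ker (V := ↥(ratW F₀ t (m + 1))) ψ hkfin
  refine ⟨h1, ?_⟩
  have h3 : Module.finrank ℚ (LinearMap.ker ψ) = Module.finrank ℚ (ratW F₀ t m) := by
    rw [hker]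
    exact e.finrank_eq
  omega

end filtration

/-- **MW-E-RATW.** -/
theorem ratW_facts : RatWStatement := by
  intro F₀ t P h
  have h0 := ratW_zero_eq F₀ t h
  have hfin : ∀ m : ℕ, Module.Finite ℚ (ratW F₀ t m) := by
    intro m
    induction m with
    | zero =>
      have h1 : Module.Finite ℚ ↥(1 : Submodule ℚ (RatRing F₀ t)) := by
        rw [Submodule.one_eq_span]
        exact Module.Finite.span_singleton ℚ _
      rw [h0]
      exact h1
    | succ m ih => exact (ratW_succ F₀ t m ih).1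
  exact ⟨ratRing_finiteType F₀ t h.fin_rat, ratRing_not_isField F₀ t h.trans_rat, h0,
    ratW_mul_le F₀ t, ratW_exhaust F₀ t, hfin, fun m => (ratW_succ F₀ t m (hfin m)).2⟩

end Fermat.Agent.H57.MWE

end
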